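import Mathlib
import Fermat.Prelude.Def_Algebra_PatchingDatum

set_option autoImplicit false

namespace Fermat.Agent.S57

open MvPowerSeries

section Endgame

variable {𝒪 : Type} [CommRing 𝒪]
  {r : ℕ} {R : Type} [CommRing R] [Algebra 𝒪 R]
  {M : Type} [AddCommGroup M] [Module R M]
  {J : Ideal (MvPowerSeries (Fin r) 𝒪)}

/-- The ideal generated by the `φ (X i)`. -/
noncomputable def relIdeal (L : Algebra.PatchingLevel 𝒪 r R M J) :
    Ideal (MvPowerSeries (Fin r) 𝒪) :=
  Ideal.span (Set.range fun i : Fin r => L.φ (MvPowerSeries.X i))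

theorem relIdeal_le_ker (L : Algebra.PatchingLevel 𝒪 r R M J) :
    relIdeal L ≤ RingHom.ker L.ψ := by
  refine Ideal.span_le.mpr ?_
  rintro _ ⟨i, rfl⟩
  exact L.ψ_φ_X i

theorem pi_finsupp_sum (L : Algebra.PatchingLevel 𝒪 r R M J) {ι : Type*}
    (v : ι → L.N) (a : ι →₀ MvPowerSeries (Fin r) 𝒪) :
    L.π (a.sum fun i c => c • v i) = a.sum fun i c => L.ψ c • L.π (v i) := by
  simp only [Finsupp.sum, map_sum, L.π_smul]

theorem mem_relIdeal_smul_top_iff (L : Algebra.PatchingLevel 𝒪 r R M J) {ι : Type*}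
    (b : Module.Basis ι (MvPowerSeries (Fin r) 𝒪) L.N) (x : L.N) :
    x ∈ relIdeal L • (⊤ : Submodule (MvPowerSeries (Fin r) 𝒪) L.N) ↔
      ∀ i, b.repr x i ∈ relIdeal L := by
  rw [← b.span_eq, Submodule.mem_ideal_smul_span_iff_exists_sum]
  constructor
  · rintro ⟨a, ha, rfl⟩ i
    have : (a.sum fun i c => c • b i) = Finsupp.linearCombination _ b a := by
      rw [Finsupp.linearCombination_apply]
    rw [this, b.repr_linearCombination]
    exact ha i
  · intro h
    refine ⟨b.repr x, h, ?_⟩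
    rw [← Finsupp.linearCombination_apply, b.linearCombination_repr]

theorem ker_eq_relIdeal_of_basis (L : Algebra.PatchingLevel 𝒪 r R M J) {ι : Type*} [Nonempty ι]
    (b : Module.Basis ι (MvPowerSeries (Fin r) 𝒪) L.N) :
    RingHom.ker L.ψ = relIdeal L := by
  refine le_antisymm ?_ (relIdeal_le_ker L)
  intro s hs
  obtain ⟨j⟩ := ‹Nonempty ι›
  have h0 : L.π (s • b j) = 0 := by
    rw [L.π_smul, (RingHom.mem_ker).mp hs, zero_smul]
  have h1 := (L.ker_π (s • b j)).mp h0
  have h2 := (mem_relIdeal_smul_top_iff L b (s • b j)).mp h1 j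
  simpa using h2

/-- The images of a basis of `N` in `M`. -/
theorem linearIndependent_pi_basis (L : Algebra.PatchingLevel 𝒪 r R M J) {ι : Type*}
    (b : Module.Basis ι (MvPowerSeries (Fin r) 𝒪) L.N) :
    LinearIndependent R (fun i => L.π (b i)) := by
  rw [linearIndependent_iff]
  intro l hl
  obtain ⟨l', rfl⟩ : ∃ l' : ι →₀ MvPowerSeries (Fin r) 𝒪,
      Finsupp.mapRange L.ψ (map_zero _) l' = l :=
    Finsupp.mapRange_surjective _ (map_zero _) L.ψ_surjective l
  rw [Finsupp.linearCombination_apply, Finsupp.sum_mapRange_index (by simp)] at hl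
  have h0 : L.π (l'.sum fun i c => c • b i) = 0 := by
    rw [pi_finsupp_sum]; exact hl
  have h1 := (L.ker_π _).mp h0
  have h2 := (mem_relIdeal_smul_top_iff L b _).mp h1
  ext i
  have h3 := h2 i
  rw [← Finsupp.linearCombination_apply, b.repr_linearCombination] at h3
  simpa using relIdeal_le_ker L h3

theorem span_pi_basis (L : Algebra.PatchingLevel 𝒪 r R M J) {ι : Type*}
    (b : Module.Basis ι (MvPowerSeries (Fin r) 𝒪) L.N) :
    ⊤ ≤ Submodule.span R (Set.range fun i => L.π (b i)) := by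
  intro m _
  obtain ⟨n, rfl⟩ := L.π_surjective m
  have hn : n = (b.repr n).sum fun i c => c • b i := by
    rw [← Finsupp.linearCombination_apply, b.linearCombination_repr]
  rw [hn, pi_finsupp_sum]
  refine Submodule.sum_mem _ fun i _ => ?_
  exact Submodule.smul_mem _ _ (Submodule.subset_span ⟨i, rfl⟩)

/-- **Endgame**: if `N` is free over `𝒪⟦X₁,…,X_r⟧` and `M` is nontrivial, then all three
conclusions hold. -/
theorem endgame_of_free [Nontrivial M] (L : Algebra.PatchingLevel 𝒪 r R M J)
    (hfree : Module.Free (MvPowerSeries (Fin r) 𝒪) L.N) :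
    Module.Free R M ∧ Module.annihilator R M = ⊥ ∧
      RingHom.ker L.ψ = Ideal.span (Set.range fun i : Fin r => L.φ (MvPowerSeries.X i)) := by
  let b := Module.Free.chooseBasis (MvPowerSeries (Fin r) 𝒪) L.N
  have hN : Nontrivial L.N := by
    obtain ⟨m, hm⟩ := exists_ne (0 : M)
    obtain ⟨n, rfl⟩ := L.π_surjective m
    exact ⟨⟨n, 0, fun h => hm (by rw [h, map_zero])⟩⟩
  have hι : Nonempty (Module.Free.ChooseBasisIndex (MvPowerSeries (Fin r) 𝒪) L.N) := by
    by_contra h
    rw [not_nonempty_iff] at h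
    have : Subsingleton L.N := b.repr.toEquiv.subsingleton
    exact not_subsingleton L.N this
  have hfreeM : Module.Free R M :=
    Module.Free.of_basis (Module.Basis.mk (linearIndependent_pi_basis L b) (span_pi_basis L b))
  refine ⟨hfreeM, ?_, ker_eq_relIdeal_of_basis L b⟩
  rw [Module.annihilator_eq_bot]
  infer_instance

end Endgame

end Fermat.Agent.S57
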