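import Mathlib

/-!
# Projective dimension of finite length modules over a local ring

If the residue field `R ⧸ 𝔪` of a local ring has projective dimension `< n`, then so does every
`R`-module of finite length.  As a consequence, over a Noetherian local ring whose maximal ideal
is generated by a regular sequence of length `n`, a finitely generated module admitting a weakly
regular sequence of length `≥ n` in the maximal ideal with finite-length quotient is free.
-/

namespace Fermat.Agent.S57

open CategoryTheory

universe v u

variable {R : Type u} [CommRing R]

/-- Transport of `HasProjectiveDimensionLT` along a linear equivalence. -/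
theorem hasProjectiveDimensionLT_of_linearEquiv {M N : Type v} [AddCommGroup M] [Module R M]
    [AddCommGroup N] [Module R N] (e : M ≃ₗ[R] N) (n : ℕ)
    (h : HasProjectiveDimensionLT (ModuleCat.of R M) n) :
    HasProjectiveDimensionLT (ModuleCat.of R N) n :=
  hasProjectiveDimensionLT_of_iso e.toModuleIso n

/-- Over a local ring, every module of finite length has projective dimension bounded by that
of the residue field. -/
theorem hasProjectiveDimensionLT_of_isFiniteLength [IsLocalRing R] [Small.{v} R] (n : ℕ)
    (hk : HasProjectiveDimensionLT
      (ModuleCat.of R (Shrink.{v} (R ⧸ IsLocalRing.maximalIdeal R))) n)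
    {L : Type v} [AddCommGroup L] [Module R L] (hL : IsFiniteLength R L) :
    HasProjectiveDimensionLT (ModuleCat.of R L) n := by
  induction hL with
  | @of_subsingleton M _ _ _ =>
    have h0 : HasProjectiveDimensionLT (ModuleCat.of R M) 0 :=
      (ModuleCat.isZero_of_subsingleton (ModuleCat.of R M)).hasProjectiveDimensionLT_zero
    exact hasProjectiveDimensionLT_of_ge _ 0 n (Nat.zero_le n)
  | @of_simple_quotient M _ _ N hsimple hN ih =>
    have hS := LinearMap.shortExact_shortComplexKer (f := N.mkQ) (Submodule.mkQ_surjective N)
    have h1 : HasProjectiveDimensionLT (ModuleCat.of R (LinearMap.ker N.mkQ)) n :=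
      hasProjectiveDimensionLT_of_linearEquiv (LinearEquiv.ofEq _ _ (Submodule.ker_mkQ N).symm) n ih
    have h3 : HasProjectiveDimensionLT (ModuleCat.of R (M ⧸ N)) n := by
      obtain ⟨I, hI, ⟨e⟩⟩ := isSimpleModule_iff_quot_maximal.mp hsimple
      have hI' : I = IsLocalRing.maximalIdeal R := IsLocalRing.eq_maximalIdeal hI
      subst hI'
      exact hasProjectiveDimensionLT_of_linearEquiv
        ((Shrink.linearEquiv R (R ⧸ IsLocalRing.maximalIdeal R)).trans e.symm) n hk
    exact hS.hasProjectiveDimensionLT_X₂ n h1 h3

/-- **Maximal Cohen–Macaulay modules over a regular local ring are free**, in the form needed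
for patching: `S` is a Noetherian local ring whose maximal ideal is generated by an `S`-regular
sequence `xs`; `N` is a finitely generated `S`-module with a weakly regular sequence `ys` inside
the maximal ideal, at least as long as `xs`, such that `N ⧸ (ys) N` has finite length. -/
theorem free_of_isWeaklyRegular_of_isFiniteLength
    {S : Type u} [CommRing S] [IsLocalRing S] [IsNoetherianRing S] [Small.{v} S]
    (xs : List S) (hxs : RingTheory.Sequence.IsRegular S xs)
    (hxsm : Ideal.ofList xs = IsLocalRing.maximalIdeal S)
    {N : Type v} [AddCommGroup N] [Module S N] [Module.Finite S N]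
    (ys : List S) (hys : RingTheory.Sequence.IsWeaklyRegular N ys)
    (hmem : ∀ y ∈ ys, y ∈ IsLocalRing.maximalIdeal S) (hlen : xs.length ≤ ys.length)
    (hfl : IsFiniteLength S (N ⧸ Ideal.ofList ys • (⊤ : Submodule S N))) :
    Module.Free S N := by
  rcases subsingleton_or_nontrivial N with hN | hN
  · exact Module.Free.of_subsingleton S N
  -- projective dimension of the residue field
  have hk : projectiveDimension
      (ModuleCat.of S (Shrink.{v} (S ⧸ IsLocalRing.maximalIdeal S))) = xs.length := by
    rw [← hxsm]
    exact ModuleCat.projectiveDimension_quotient_eq_length xs hxs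
  have hk' : HasProjectiveDimensionLT
      (ModuleCat.of S (Shrink.{v} (S ⧸ IsLocalRing.maximalIdeal S))) (xs.length + 1) :=
    (projectiveDimension_le_iff _ _).mp hk.le
  -- hence of the finite length quotient
  have hL : HasProjectiveDimensionLT
      (ModuleCat.of S (N ⧸ Ideal.ofList ys • (⊤ : Submodule S N))) (xs.length + 1) :=
    hasProjectiveDimensionLT_of_isFiniteLength (xs.length + 1) hk' hfl
  have hL' : projectiveDimension
      (ModuleCat.of S (N ⧸ Ideal.ofList ys • (⊤ : Submodule S N))) ≤ xs.length :=
    (projectiveDimension_le_iff _ _).mpr hL
  -- additivity of projective dimension along weakly regular sequences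
  have hadd := ModuleCat.projectiveDimension_quotient_eq_add_length_of_isWeaklyRegular
    (ModuleCat.of S N) ys hys hmem
  have h0 : projectiveDimension (ModuleCat.of S N) ≤ (0 : ℕ) := by
    have h1 : projectiveDimension (ModuleCat.of S N) + (ys.length : ℕ) ≤
        ((0 : ℕ) : WithBot ℕ∞) + (ys.length : ℕ) := by
      rw [← hadd]
      refine hL'.trans ?_
      rw [Nat.cast_zero, zero_add]
      exact_mod_cast hlen
    exact ENat.WithBot.add_le_add_natCast_right_iff.mp h1
  have hproj : Projective (ModuleCat.of S N) :=
    (projective_iff_hasProjectiveDimensionLE_zero _).mpr ((projectiveDimension_le_iff _ _).mp h0)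
  have hproj' : Module.Projective S N := (IsProjective.iff_projective N).mpr hproj
  exact Module.free_of_flat_of_isLocalRing

end Fermat.Agent.S57
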