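import Mathlib

/-!
# The variables (and a regular sequence of the base) form a regular sequence on power series rings

For a commutative ring `A` and a list `rs` that is weakly regular on `A`, the list
`X 0, …, X (n-1), C r₁, …, C rₖ` is weakly regular on `MvPowerSeries (Fin n) A`, and the ideal it
generates is the preimage of `Ideal.ofList rs` under the constant-coefficient map.
For a discrete valuation ring `𝒪` with uniformizer `ϖ` this yields the regular system of
parameters `X 0, …, X (r-1), C ϖ` of `MvPowerSeries (Fin r) 𝒪`.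
-/

set_option autoImplicit false

namespace Fermat.Agent.S57

open RingTheory.Sequence Pointwise

section PowerSeries

variable {A : Type*} [CommRing A]

/-- `X` is a regular element of `A⟦X⟧`. -/
theorem powerSeries_isSMulRegular_X :
    IsSMulRegular (PowerSeries A) (PowerSeries.X : PowerSeries A) := by
  intro f g h
  exact PowerSeries.X_mul_cancel h

theorem powerSeries_ker_constantCoeff_toAddMonoidHom :
    ((PowerSeries.X : PowerSeries A) • (⊤ : Submodule (PowerSeries A) (PowerSeries A))).toAddSubgroup
      = ((PowerSeries.constantCoeff : PowerSeries A →+* A) : PowerSeries A →+ A).ker := by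
  ext f
  simp only [AddMonoidHom.mem_ker, AddMonoidHom.coe_coe]
  rw [Submodule.mem_toAddSubgroup, Submodule.mem_smul_pointwise_iff_exists, ← PowerSeries.X_dvd_iff]
  constructor
  · rintro ⟨g, -, rfl⟩
    exact ⟨g, rfl⟩
  · rintro ⟨g, rfl⟩
    exact ⟨g, trivial, rfl⟩

/-- The additive equivalence `A⟦X⟧ / X • A⟦X⟧ ≃+ A` induced by the constant coefficient. -/
noncomputable def quotXAddEquiv :
    QuotSMulTop (PowerSeries.X : PowerSeries A) (PowerSeries A) ≃+ A :=
  (QuotientAddGroup.quotientAddEquivOfEq powerSeries_ker_constantCoeff_toAddMonoidHom).trans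
    (QuotientAddGroup.quotientKerEquivOfSurjective
      ((PowerSeries.constantCoeff : PowerSeries A →+* A) : PowerSeries A →+ A)
      (fun a => ⟨PowerSeries.C a, by simp⟩))

theorem quotXAddEquiv_mk (f : PowerSeries A) :
    quotXAddEquiv (Submodule.Quotient.mk f) = PowerSeries.constantCoeff f := rfl

/-- If `rs` is weakly regular on `A`, then `X :: rs.map C` is weakly regular on `A⟦X⟧`. -/
theorem powerSeries_isWeaklyRegular_X_cons {rs : List A} (h : IsWeaklyRegular A rs) :
    IsWeaklyRegular (PowerSeries A)
      ((PowerSeries.X : PowerSeries A) :: rs.map (PowerSeries.C : A →+* PowerSeries A)) := by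
  rw [isWeaklyRegular_cons_iff]
  refine ⟨powerSeries_isSMulRegular_X, ?_⟩
  refine (AddEquiv.isWeaklyRegular_congr (e := quotXAddEquiv (A := A)) ?_).mpr h
  refine List.forall₂_map_left_iff.mpr (List.forall₂_same.mpr fun r _ x => ?_)
  obtain ⟨f, rfl⟩ := Submodule.Quotient.mk_surjective _ x
  rw [← Submodule.Quotient.mk_smul, quotXAddEquiv_mk, quotXAddEquiv_mk]
  simp

/-- The ideal generated by `X` and the constants from `rs` is the preimage of `(rs)` under the
constant coefficient map. -/
theorem powerSeries_ofList_X_cons (rs : List A) :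
    Ideal.ofList ((PowerSeries.X : PowerSeries A) :: rs.map (PowerSeries.C : A →+* PowerSeries A)) =
      Ideal.comap (PowerSeries.constantCoeff : PowerSeries A →+* A) (Ideal.ofList rs) := by
  rw [Ideal.ofList_cons, ← Ideal.map_ofList]
  apply le_antisymm
  · refine sup_le ?_ ?_
    · rw [Ideal.span_le, Set.singleton_subset_iff]
      simp
    · rw [Ideal.map_le_iff_le_comap]
      intro x hx
      simpa [Ideal.mem_comap] using hx
  · intro f hf
    rw [Ideal.mem_comap] at hf
    rw [PowerSeries.eq_X_mul_shift_add_const f]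
    refine Ideal.add_mem _ ?_ ?_
    · exact Ideal.mem_sup_left (Ideal.mul_mem_right _ _ (Ideal.subset_span rfl))
    · exact Ideal.mem_sup_right (Ideal.mem_map_of_mem _ hf)

end PowerSeries

section MvPowerSeries

variable {A : Type*} [CommRing A]

theorem map_finSuccEquiv_vars (n : ℕ) (rs : List A) :
    (List.ofFn (fun i : Fin (n + 1) => (MvPowerSeries.X i : MvPowerSeries (Fin (n + 1)) A)) ++
        rs.map (MvPowerSeries.C : A →+* MvPowerSeries (Fin (n + 1)) A)).map
      (MvPowerSeries.finSuccEquiv A n) =
    (PowerSeries.X : PowerSeries (MvPowerSeries (Fin n) A)) ::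
      (List.ofFn (fun i : Fin n => (MvPowerSeries.X i : MvPowerSeries (Fin n) A)) ++
        rs.map (MvPowerSeries.C : A →+* MvPowerSeries (Fin n) A)).map
        (PowerSeries.C : MvPowerSeries (Fin n) A →+* PowerSeries (MvPowerSeries (Fin n) A)) := by
  simp [List.ofFn_succ, List.map_append, List.map_ofFn, Function.comp_def]

/-- If `rs` is weakly regular on `A`, then `X 0, …, X (n-1), C r₁, …, C rₖ` is weakly regular on
`MvPowerSeries (Fin n) A`. -/
theorem isWeaklyRegular_vars_append (n : ℕ) {rs : List A} (h : IsWeaklyRegular A rs) :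
    IsWeaklyRegular (MvPowerSeries (Fin n) A)
      (List.ofFn (fun i : Fin n => (MvPowerSeries.X i : MvPowerSeries (Fin n) A)) ++
        rs.map (MvPowerSeries.C : A →+* MvPowerSeries (Fin n) A)) := by
  induction n with
  | zero =>
    simp only [List.ofFn_zero, List.nil_append]
    refine (AddEquiv.isWeaklyRegular_congr
      (e := (MvPowerSeries.isEmptyEquiv (Fin 0) A).toAddEquiv) ?_).mpr h
    refine List.forall₂_map_left_iff.mpr (List.forall₂_same.mpr fun r _ x => ?_)
    simp
  | succ n ih =>
    have key := powerSeries_isWeaklyRegular_X_cons ih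
    rw [← map_finSuccEquiv_vars] at key
    refine (AddEquiv.isWeaklyRegular_congr
      (e := (MvPowerSeries.finSuccEquiv A n).toAddEquiv) ?_).mpr key
    refine List.forall₂_map_right_iff.mpr (List.forall₂_same.mpr fun r _ x => ?_)
    simp

theorem constantCoeff_finSuccEquiv (n : ℕ) (f : MvPowerSeries (Fin (n + 1)) A) :
    MvPowerSeries.constantCoeff (PowerSeries.constantCoeff (MvPowerSeries.finSuccEquiv A n f)) =
      MvPowerSeries.constantCoeff f := by
  rw [← PowerSeries.coeff_zero_eq_constantCoeff_apply, ← MvPowerSeries.coeff_zero_eq_constantCoeff_apply,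
    MvPowerSeries.coeff_coeff_finSuccEquiv, Finsupp.cons_zero_zero,
    MvPowerSeries.coeff_zero_eq_constantCoeff_apply]

/-- The ideal generated by the variables and the constants from `rs` is the preimage of `(rs)`
under the constant coefficient map. -/
theorem ofList_vars_append (n : ℕ) (rs : List A) :
    Ideal.ofList
      (List.ofFn (fun i : Fin n => (MvPowerSeries.X i : MvPowerSeries (Fin n) A)) ++
        rs.map (MvPowerSeries.C : A →+* MvPowerSeries (Fin n) A)) =
      Ideal.comap (MvPowerSeries.constantCoeff : MvPowerSeries (Fin n) A →+* A)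
        (Ideal.ofList rs) := by
  induction n with
  | zero =>
    simp only [List.ofFn_zero, List.nil_append]
    rw [← Ideal.map_ofList]
    ext f
    rw [Ideal.mem_comap]
    constructor
    · intro hf
      have := Ideal.mem_map_of_mem (MvPowerSeries.constantCoeff : MvPowerSeries (Fin 0) A →+* A) hf
      rwa [Ideal.map_map, show (MvPowerSeries.constantCoeff : MvPowerSeries (Fin 0) A →+* A).comp
        MvPowerSeries.C = RingHom.id A from by ext; simp, Ideal.map_id] at this
    · intro hf
      have := Ideal.mem_map_of_mem (MvPowerSeries.C : A →+* MvPowerSeries (Fin 0) A) hf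
      have h2 : MvPowerSeries.C (MvPowerSeries.constantCoeff f) = f :=
        (MvPowerSeries.isEmptyEquiv (Fin 0) A).left_inv f
      rwa [h2] at this
  | succ n ih =>
    have key := powerSeries_ofList_X_cons
      (List.ofFn (fun i : Fin n => (MvPowerSeries.X i : MvPowerSeries (Fin n) A)) ++
        rs.map (MvPowerSeries.C : A →+* MvPowerSeries (Fin n) A))
    rw [← map_finSuccEquiv_vars, ih] at key
    ext f
    rw [Ideal.mem_comap, ← constantCoeff_finSuccEquiv, ← Ideal.mem_comap, ← Ideal.mem_comap, ← key]
    have h3 := Ideal.map_ofList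
      ((MvPowerSeries.finSuccEquiv A n).toRingEquiv.toRingHom)
      (List.ofFn (fun i : Fin (n + 1) => (MvPowerSeries.X i : MvPowerSeries (Fin (n + 1)) A)) ++
        rs.map (MvPowerSeries.C : A →+* MvPowerSeries (Fin (n + 1)) A))
    have h4 : ∀ l : List (MvPowerSeries (Fin (n + 1)) A),
        l.map ((MvPowerSeries.finSuccEquiv A n).toRingEquiv.toRingHom) =
          l.map (MvPowerSeries.finSuccEquiv A n) := fun l => rfl
    rw [h4] at h3
    rw [← h3]
    constructor
    · intro hf
      exact Ideal.mem_map_of_mem _ hf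
    · intro hf
      obtain ⟨x, hx, hxf⟩ := (Ideal.mem_map_of_equiv (MvPowerSeries.finSuccEquiv A n).toRingEquiv _).mp hf
      have : x = f := (MvPowerSeries.finSuccEquiv A n).injective hxf
      rwa [← this]

end MvPowerSeries

section Local

variable {A : Type*} [CommRing A] [IsLocalRing A]

theorem maximalIdeal_mvPowerSeries (σ : Type*) :
    IsLocalRing.maximalIdeal (MvPowerSeries σ A) =
      Ideal.comap (MvPowerSeries.constantCoeff : MvPowerSeries σ A →+* A)
        (IsLocalRing.maximalIdeal A) := by
  ext f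
  rw [Ideal.mem_comap, IsLocalRing.mem_maximalIdeal, IsLocalRing.mem_maximalIdeal, mem_nonunits_iff,
    mem_nonunits_iff, MvPowerSeries.isUnit_iff_constantCoeff]

theorem ofList_vars_append_eq_maximalIdeal (n : ℕ) {rs : List A}
    (hrs : Ideal.ofList rs = IsLocalRing.maximalIdeal A) :
    Ideal.ofList
      (List.ofFn (fun i : Fin n => (MvPowerSeries.X i : MvPowerSeries (Fin n) A)) ++
        rs.map (MvPowerSeries.C : A →+* MvPowerSeries (Fin n) A)) =
      IsLocalRing.maximalIdeal (MvPowerSeries (Fin n) A) := by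
  rw [ofList_vars_append, hrs, maximalIdeal_mvPowerSeries]

theorem isRegular_vars_append (n : ℕ) {rs : List A} (h : IsWeaklyRegular A rs)
    (hrs : Ideal.ofList rs = IsLocalRing.maximalIdeal A) :
    IsRegular (MvPowerSeries (Fin n) A)
      (List.ofFn (fun i : Fin n => (MvPowerSeries.X i : MvPowerSeries (Fin n) A)) ++
        rs.map (MvPowerSeries.C : A →+* MvPowerSeries (Fin n) A)) := by
  refine IsRegular.of_isWeaklyRegular_of_mem_maximalIdeal _ (fun x hx => ?_)
    (isWeaklyRegular_vars_append n h)
  rw [← ofList_vars_append_eq_maximalIdeal n hrs]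
  exact Ideal.subset_span hx

end Local

section DVR

variable {𝒪 : Type*} [CommRing 𝒪] [IsDomain 𝒪]

theorem isWeaklyRegular_singleton_of_irreducible {ϖ : 𝒪} (hϖ : Irreducible ϖ) :
    IsWeaklyRegular 𝒪 [ϖ] := by
  rw [isWeaklyRegular_singleton_iff]
  exact (_root_.IsRegular.of_ne_zero hϖ.ne_zero).isSMulRegular

variable [IsDiscreteValuationRing 𝒪]

theorem ofList_singleton_of_irreducible {ϖ : 𝒪} (hϖ : Irreducible ϖ) :
    Ideal.ofList [ϖ] = IsLocalRing.maximalIdeal 𝒪 := by
  rw [Ideal.ofList_singleton, hϖ.maximalIdeal_eq]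

/-- For a DVR `𝒪` with uniformizer `ϖ`, the list `X 0, …, X (r-1), C ϖ` is a regular sequence on
`𝒪⟦X₀, …, X_{r-1}⟧`. -/
theorem isRegular_vars_uniformizer (r : ℕ) {ϖ : 𝒪} (hϖ : Irreducible ϖ) :
    IsRegular (MvPowerSeries (Fin r) 𝒪)
      (List.ofFn (fun i : Fin r => (MvPowerSeries.X i : MvPowerSeries (Fin r) 𝒪)) ++
        [(MvPowerSeries.C : 𝒪 →+* MvPowerSeries (Fin r) 𝒪) ϖ]) :=
  isRegular_vars_append r (isWeaklyRegular_singleton_of_irreducible hϖ)
    (ofList_singleton_of_irreducible hϖ)

/-- For a DVR `𝒪` with uniformizer `ϖ`, the list `X 0, …, X (r-1), C ϖ` generates the maximal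
ideal of `𝒪⟦X₀, …, X_{r-1}⟧`. -/
theorem ofList_vars_uniformizer (r : ℕ) {ϖ : 𝒪} (hϖ : Irreducible ϖ) :
    Ideal.ofList
      (List.ofFn (fun i : Fin r => (MvPowerSeries.X i : MvPowerSeries (Fin r) 𝒪)) ++
        [(MvPowerSeries.C : 𝒪 →+* MvPowerSeries (Fin r) 𝒪) ϖ]) =
      IsLocalRing.maximalIdeal (MvPowerSeries (Fin r) 𝒪) :=
  ofList_vars_append_eq_maximalIdeal r (ofList_singleton_of_irreducible hϖ)

end DVR

end Fermat.Agent.S57
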