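import Mathlib
import Fermat.Prelude.Def_Algebra_PatchingDatum

set_option autoImplicit false
set_option linter.style.haveILetI false

namespace Fermat.Agent.S57

open MvPowerSeries RingTheory.Sequence IsLocalRing

section Transport

variable {𝒪 : Type} [CommRing 𝒪]
  {r : ℕ} {R : Type} [CommRing R] [Algebra 𝒪 R]
  {M : Type} [AddCommGroup M] [Module R M]

/-- The additive map `S^d → N`, `c ↦ ∑ φ (c i) • b i`. -/
noncomputable def twistHom {J : Ideal (MvPowerSeries (Fin r) 𝒪)}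
    (L : Algebra.PatchingLevel 𝒪 r R M J) :
    (Fin L.d → MvPowerSeries (Fin r) 𝒪) →+ L.N where
  toFun c := ∑ i, L.φ (c i) • L.b i
  map_zero' := by simp
  map_add' c c' := by simp [add_smul, Finset.sum_add_distrib]

theorem twistHom_apply {J : Ideal (MvPowerSeries (Fin r) 𝒪)}
    (L : Algebra.PatchingLevel 𝒪 r R M J) (c : Fin L.d → MvPowerSeries (Fin r) 𝒪) :
    twistHom L c = ∑ i, L.φ (c i) • L.b i := rfl

theorem twistHom_smul {J : Ideal (MvPowerSeries (Fin r) 𝒪)}
    (L : Algebra.PatchingLevel 𝒪 r R M J) (s : MvPowerSeries (Fin r) 𝒪)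
    (c : Fin L.d → MvPowerSeries (Fin r) 𝒪) :
    twistHom L (s • c) = L.φ s • twistHom L c := by
  simp only [twistHom_apply, Pi.smul_apply, smul_eq_mul, map_mul, mul_smul, Finset.smul_sum]

theorem twistHom_surjective {J : Ideal (MvPowerSeries (Fin r) 𝒪)}
    (L : Algebra.PatchingLevel 𝒪 r R M J) : Function.Surjective (twistHom L) := by
  intro x
  obtain ⟨c, hc⟩ := L.b_span x
  exact ⟨c, hc.symm⟩

theorem twistHom_injective (L : Algebra.PatchingLevel 𝒪 r R M ⊥) :
    Function.Injective (twistHom L) := by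
  rw [injective_iff_map_eq_zero]
  intro c hc
  have := (L.b_rel c).mp hc
  funext i
  simpa using this i

/-- The `φ`-semilinear additive equivalence `S^d ≃+ N`. -/
noncomputable def twistEquiv (L : Algebra.PatchingLevel 𝒪 r R M ⊥) :
    (Fin L.d → MvPowerSeries (Fin r) 𝒪) ≃+ L.N :=
  AddEquiv.ofBijective (twistHom L) ⟨twistHom_injective L, twistHom_surjective L⟩

theorem twistEquiv_apply (L : Algebra.PatchingLevel 𝒪 r R M ⊥)
    (c : Fin L.d → MvPowerSeries (Fin r) 𝒪) :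
    twistEquiv L c = ∑ i, L.φ (c i) • L.b i := rfl

theorem twistEquiv_smul (L : Algebra.PatchingLevel 𝒪 r R M ⊥) (s : MvPowerSeries (Fin r) 𝒪)
    (c : Fin L.d → MvPowerSeries (Fin r) 𝒪) :
    twistEquiv L (s • c) = L.φ s • twistEquiv L c :=
  twistHom_smul L s c

/-- Weak regularity on `S` transports to weak regularity on `N` of the image sequence. -/
theorem isWeaklyRegular_map_phi (L : Algebra.PatchingLevel 𝒪 r R M ⊥)
    (rs : List (MvPowerSeries (Fin r) 𝒪))
    (h : IsWeaklyRegular (MvPowerSeries (Fin r) 𝒪) rs) :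
    IsWeaklyRegular L.N (rs.map L.φ) := by
  have h1 : IsWeaklyRegular (Fin L.d → MvPowerSeries (Fin r) 𝒪) rs := by
    have h2 := h.isWeaklyRegular_lTensor (M₂ := Fin L.d → MvPowerSeries (Fin r) 𝒪)
    exact (LinearEquiv.isWeaklyRegular_congr
      (TensorProduct.rid (MvPowerSeries (Fin r) 𝒪) (Fin L.d → MvPowerSeries (Fin r) 𝒪)) rs).mp h2
  refine ((twistEquiv L).isWeaklyRegular_congr ?_).mp h1
  exact List.forall₂_map_right_iff.mpr <| List.forall₂_same.mpr fun s _ c => twistEquiv_smul L s c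

theorem finite_N {J : Ideal (MvPowerSeries (Fin r) 𝒪)}
    (L : Algebra.PatchingLevel 𝒪 r R M J) : Module.Finite (MvPowerSeries (Fin r) 𝒪) L.N := by
  have h : (⊤ : Submodule (MvPowerSeries (Fin r) 𝒪) L.N) = Submodule.span _ (Set.range L.b) := by
    rw [eq_comm, eq_top_iff]
    intro x _
    obtain ⟨c, rfl⟩ := L.b_span x
    exact Submodule.sum_mem _ fun i _ =>
      Submodule.smul_mem _ _ (Submodule.subset_span (Set.mem_range_self i))
  exact ⟨h ▸ Submodule.fg_span (Set.finite_range L.b)⟩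

theorem nontrivial_N [Nontrivial M] {J : Ideal (MvPowerSeries (Fin r) 𝒪)}
    (L : Algebra.PatchingLevel 𝒪 r R M J) : Nontrivial L.N := by
  obtain ⟨m, hm⟩ := exists_ne (0 : M)
  obtain ⟨n, rfl⟩ := L.π_surjective m
  exact ⟨⟨n, 0, fun h => hm (by rw [h, map_zero])⟩⟩

theorem d_pos [Nontrivial M] {J : Ideal (MvPowerSeries (Fin r) 𝒪)}
    (L : Algebra.PatchingLevel 𝒪 r R M J) : 0 < L.d := by
  by_contra h
  have hd : L.d = 0 := by omega
  have := nontrivial_N L
  obtain ⟨x, hx⟩ := exists_ne (0 : L.N)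
  obtain ⟨c, hc⟩ := L.b_span x
  apply hx
  rw [hc]
  have : IsEmpty (Fin L.d) := by rw [hd]; infer_instance
  simp

/-- `φ` is a local homomorphism. -/
theorem phi_mem_maximalIdeal [IsLocalRing 𝒪] [Nontrivial M]
    (L : Algebra.PatchingLevel 𝒪 r R M ⊥)
    {s : MvPowerSeries (Fin r) 𝒪} (hs : s ∈ maximalIdeal (MvPowerSeries (Fin r) 𝒪)) :
    L.φ s ∈ maximalIdeal (MvPowerSeries (Fin r) 𝒪) := by
  rw [mem_maximalIdeal, mem_nonunits_iff] at hs ⊢
  intro hu
  apply hs
  obtain ⟨u, hu⟩ := hu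
  let i0 : Fin L.d := ⟨0, d_pos L⟩
  -- the element `e (single i0 1)`
  let c : Fin L.d → MvPowerSeries (Fin r) 𝒪 := Pi.single i0 1
  obtain ⟨c', hc'⟩ := (twistEquiv L).surjective ((↑u⁻¹ : MvPowerSeries (Fin r) 𝒪) • twistEquiv L c)
  have h1 : twistEquiv L (s • c') = twistEquiv L c := by
    rw [twistEquiv_smul, hc', ← hu, smul_smul, Units.mul_inv, one_smul]
  have h2 := (twistEquiv L).injective h1
  have h3 := congrFun h2 i0
  simp only [Pi.smul_apply, smul_eq_mul, c, Pi.single_eq_same] at h3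
  exact IsUnit.of_mul_eq_one _ h3

theorem phi_C {J : Ideal (MvPowerSeries (Fin r) 𝒪)}
    (L : Algebra.PatchingLevel 𝒪 r R M J) (a : 𝒪) :
    L.φ (C a) = C a := by
  rw [c_eq_algebraMap]
  exact L.φ.commutes a

theorem sub_C_constantCoeff_mem_maximalIdeal [IsLocalRing 𝒪] (s : MvPowerSeries (Fin r) 𝒪) :
    s - C (constantCoeff s) ∈ maximalIdeal (MvPowerSeries (Fin r) 𝒪) := by
  rw [mem_maximalIdeal, mem_nonunits_iff, isUnit_iff_constantCoeff]
  simp

theorem C_mem_maximalIdeal [IsLocalRing 𝒪] {a : 𝒪} (ha : a ∈ maximalIdeal 𝒪) :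
    (C a : MvPowerSeries (Fin r) 𝒪) ∈ maximalIdeal (MvPowerSeries (Fin r) 𝒪) := by
  rw [mem_maximalIdeal, mem_nonunits_iff, isUnit_iff_constantCoeff]
  simpa using ha

/-- The quotient of `N` by the image of the maximal ideal has finite length. -/
theorem isFiniteLength_quot_map_maximalIdeal [IsLocalRing 𝒪] [IsNoetherianRing 𝒪]
    {J : Ideal (MvPowerSeries (Fin r) 𝒪)}
    (L : Algebra.PatchingLevel 𝒪 r R M J) :
    IsFiniteLength (MvPowerSeries (Fin r) 𝒪)
      (L.N ⧸ ((maximalIdeal (MvPowerSeries (Fin r) 𝒪)).map L.φ •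
        (⊤ : Submodule (MvPowerSeries (Fin r) 𝒪) L.N))) := by
  have hfin : Module.Finite (MvPowerSeries (Fin r) 𝒪) L.N := finite_N L
  rw [isFiniteLength_iff_isNoetherian_isArtinian]
  refine ⟨inferInstance, ?_⟩
  letI : Module 𝒪 L.N := Module.compHom L.N (algebraMap 𝒪 (MvPowerSeries (Fin r) 𝒪))
  have hsmul : ∀ (a : 𝒪) (n : L.N), a • n = (C a : MvPowerSeries (Fin r) 𝒪) • n := by
    intro a n
    rw [c_eq_algebraMap]
    rfl
  haveI : IsScalarTower 𝒪 (MvPowerSeries (Fin r) 𝒪) L.N := ⟨fun a s n => by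
    rw [hsmul, Algebra.smul_def, mul_smul, c_eq_algebraMap]⟩
  set I := (maximalIdeal (MvPowerSeries (Fin r) 𝒪)).map L.φ with hI
  set Q := L.N ⧸ (I • (⊤ : Submodule (MvPowerSeries (Fin r) 𝒪) L.N)) with hQ
  refine isArtinian_of_tower 𝒪 ?_
  -- `Q` is killed by the maximal ideal of `𝒪`
  have hmem : ∀ (s : MvPowerSeries (Fin r) 𝒪), s ∈ maximalIdeal (MvPowerSeries (Fin r) 𝒪) →
      ∀ n : L.N, L.φ s • n ∈ I • (⊤ : Submodule (MvPowerSeries (Fin r) 𝒪) L.N) :=
    fun s hs n => Submodule.smul_mem_smul (Ideal.mem_map_of_mem _ hs) Submodule.mem_top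
  have hkill : Module.IsTorsionBySet 𝒪 Q (maximalIdeal 𝒪 : Set 𝒪) := by
    intro q a
    obtain ⟨n, rfl⟩ := Submodule.Quotient.mk_surjective _ q
    rw [← Submodule.Quotient.mk_smul, Submodule.Quotient.mk_eq_zero, hsmul, ← phi_C L]
    exact hmem _ (C_mem_maximalIdeal a.2) n
  -- `Q` is finitely generated over `𝒪`
  have hfinO : Module.Finite 𝒪 Q := by
    have h : (⊤ : Submodule 𝒪 Q) =
        Submodule.span 𝒪 (Set.range fun i => (Submodule.Quotient.mk (L.b i) : Q)) := by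
      rw [eq_comm, eq_top_iff]
      intro q _
      obtain ⟨n, rfl⟩ := Submodule.Quotient.mk_surjective _ q
      obtain ⟨c, rfl⟩ := L.b_span n
      have hterm : ∀ i, (Submodule.Quotient.mk (L.φ (c i) • L.b i) : Q) =
          (constantCoeff (c i)) • (Submodule.Quotient.mk (L.b i) : Q) := by
        intro i
        rw [← Submodule.Quotient.mk_smul, Submodule.Quotient.eq, hsmul, ← phi_C L, ← sub_smul,
          ← map_sub]
        exact hmem _ (sub_C_constantCoeff_mem_maximalIdeal (c i)) _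
      have key : (Submodule.Quotient.mk (∑ i, L.φ (c i) • L.b i) : Q) =
          ∑ i, (constantCoeff (c i)) • (Submodule.Quotient.mk (L.b i) : Q) := by
        have hsum : (Submodule.Quotient.mk (∑ i, L.φ (c i) • L.b i) : Q) =
            ∑ i, (Submodule.Quotient.mk (L.φ (c i) • L.b i) : Q) :=
          map_sum (Submodule.mkQ (I • (⊤ : Submodule (MvPowerSeries (Fin r) 𝒪) L.N))) _ _
        rw [hsum]
        exact Finset.sum_congr rfl fun i _ => hterm i
      rw [key]
      exact Submodule.sum_mem _ fun i _ =>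
        Submodule.smul_mem _ _ (Submodule.subset_span (Set.mem_range_self i))
    exact ⟨h ▸ Submodule.fg_span (Set.finite_range _)⟩
  letI : Module (𝒪 ⧸ maximalIdeal 𝒪) Q := hkill.module
  haveI : IsScalarTower 𝒪 (𝒪 ⧸ maximalIdeal 𝒪) Q := hkill.isScalarTower
  letI : Field (𝒪 ⧸ maximalIdeal 𝒪) := Ideal.Quotient.field _
  haveI : Module.Finite (𝒪 ⧸ maximalIdeal 𝒪) Q :=
    Module.Finite.of_restrictScalars_finite 𝒪 (𝒪 ⧸ maximalIdeal 𝒪) Q
  haveI : IsArtinian (𝒪 ⧸ maximalIdeal 𝒪) Q := inferInstance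
  exact isArtinian_of_surjective_algebraMap (S := 𝒪) (R := 𝒪 ⧸ maximalIdeal 𝒪)
    Ideal.Quotient.mk_surjective

end Transport

end Fermat.Agent.S57
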